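/-
S45, block PTS (owner helper219): THE SKELETON OF THE BLOCK.  `pts_of` (the fields `pts₁`, `pts₂` of `ModelK`) from the
nodes; every `sorry` below is a node with an owner (see the docstrings).  Owners: prove the SAME statement in the file named
in the docstring (namespace `Fermat.Agent.S45.Pts`).
-/
import Fermat.Agent.S45.Pts.Defs
import Fermat.Agent.S36.BP.Loc.Basic
import Fermat.Agent.S18.Chart.Overlap

set_option autoImplicit false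

noncomputable section

namespace Fermat.Agent.S45.Pts.WIP

open Fermat.Agent.S18 Fermat.Agent.S36.BP Fermat.Agent.BAD.Model Fermat.Agent.S45.K
  IntermediateField Polynomial

section Pre

variable {K₀ F : Type*} [Field K₀] [Field F] [Algebra K₀ F]
variable {A₀ : ValuationSubring K₀} {q : ℕ} {x : F} {κ : Type*} {V : κ → ValuationSubring F}

/-- **PRE-1** (`Pts/Pre/PtBase.lean`): port of `BAD/Model/Pre/{Denominator,IsPt,Loc,PtBaseCore,PtBase}.lean`. -/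
theorem PreModelK.ptBase [Finite κ] (P : PreModelK A₀ q x V) (𝔫 : Ideal (chart A₀.toSubring x))
    [𝔫.IsMaximal] (h𝔫 : (q : chart A₀.toSubring x) ∈ 𝔫) :
    PtBaseK A₀ q V (locSub (chart A₀.toSubring x) 𝔫) := sorry

/-- **PRE-2** (`Pts/Pre/Inv.lean`): port of `BAD/Model/Pre/Inv.lean`. -/
theorem PreModelK.inv (P : PreModelK A₀ q x V) : PreModelK A₀ q x⁻¹ V := sorry

/-- **PRE-3** (`Pts/Pre/Overlap.lean`): port of `BAD/Model/Pre/Overlap.lean`. -/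
theorem PreModelK.exists_point_of_inv_notMem [Finite κ] [Nonempty κ] (P : PreModelK A₀ q x V)
    (𝔫 : Ideal (chart A₀.toSubring x⁻¹)) [𝔫.IsMaximal] (h𝔫 : (q : chart A₀.toSubring x⁻¹) ∈ 𝔫)
    (hx : (⟨x⁻¹, self_mem_chart _⟩ : chart A₀.toSubring x⁻¹) ∉ 𝔫) :
    ∃ (𝔪 : Ideal (chart A₀.toSubring x)) (h𝔪 : 𝔪.IsMaximal), (q : chart A₀.toSubring x) ∈ 𝔪 ∧
      (haveI := h𝔪; locSub (chart A₀.toSubring x) 𝔪) = locSub (chart A₀.toSubring x⁻¹) 𝔫 := sorry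

end Pre

section Main

variable {K₀ F₀ F₁ F₂ F : Type*} [Field K₀] [Field F₀] [Field F₁] [Field F₂] [Field F]
  [Algebra K₀ F₀] [Algebra K₀ F₁] [Algebra K₀ F₂] [Algebra K₀ F]
variable {A₀ : ValuationSubring K₀} {q k : ℕ} {al0 be0 : F₀ →ₐ[K₀] F₁} {al1 be1 : F₁ →ₐ[K₀] F₂}
  {V0 : ValuationSubring F₀} {V1 : Fin 2 → ValuationSubring F₁} {V2 : Fin 3 → ValuationSubring F₂}
  {V : Fin (k + 1) → ValuationSubring F} {j x₀ t : F₀} {x₁ : F₁} {w1 : F₁ →ₐ[K₀] F₁}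
  {cf : ℕ → ℕ → K₀} {κ : F₂} {e : Fin 4 → F₂}
  {d : ℕ → F₀ →ₐ[K₀] F} {st : ℕ → F₁ →ₐ[K₀] F} {w : ℕ → F₂ →ₐ[K₀] F}
  {Eα : Subfield F} {Nα Nβ N₀ : F →* F} {R : Subring F}

/-- **THR** (`Pts/Through.lean`, helper219). -/
theorem through_of_leLoc (G : Geo A₀ k al0 be0 al1 be1 V0 V1 V2 V j d st w)
    (b0 : B0 A₀ q V0 j x₀ t F) (T : Top A₀ q k V j d Eα Nα Nβ N₀) (hR : IsPt A₀ R)
    (hx : d 0 j ∈ R ∨ (d 0 j)⁻¹ ∈ rad R) (c : Fin (k + 1)) (hL : LeLoc R (V c)) :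
    Through R (V c) := sorry

/-- **NORM** (`Pts/Norm.lean`, helper169): at a crossing point the three norms preserve the units
(`S36/Inst/HalfPt/NormUnit.normUnit_of_cong`; for `N₀`: `N₀ b ^ q = N₀ (Nα b) ≡ (Nα b)^(q²)`). -/
theorem cross_norms (hq : 0 < q) (T : Top A₀ q k V j d Eα Nα Nβ N₀)
    (𝔫 : Ideal (chart A₀.toSubring (d 0 j))) [𝔫.IsMaximal]
    (hall : ∀ c, Through (locSub (chart A₀.toSubring (d 0 j)) 𝔫) (V c)) :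
    (∀ ε : F, RUnit (locSub (chart A₀.toSubring (d 0 j)) 𝔫) ε →
      RUnit (locSub (chart A₀.toSubring (d 0 j)) 𝔫) (Nα ε)) ∧
    (∀ ε : F, RUnit (locSub (chart A₀.toSubring (d 0 j)) 𝔫) ε →
      RUnit (locSub (chart A₀.toSubring (d 0 j)) 𝔫) (Nβ ε)) ∧
    (∀ ε : F, RUnit (locSub (chart A₀.toSubring (d 0 j)) 𝔫) ε →
      RUnit (locSub (chart A₀.toSubring (d 0 j)) 𝔫) (N₀ ε)) := sorry

/-- **GEN** (`Pts/GenChain.lean`, helper88): the chain `z_i = g(q^(a+i) z)/g(q^(a-i) z) - 1` on a middle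
component, for any good `g` (from `Gen/Step.lean`: `Pal.step` on the sub-window `[a-i, a+i]`). -/
theorem gen_chain (hb : BaseHyp A₀ q) (G : Geo A₀ k al0 be0 al1 be1 V0 V1 V2 V j d st w)
    (b1 : B1 A₀ q al0 be0 V1 j t x₁ w1 cf) (c : Fin (k + 1)) (hc0 : 0 < (c : ℕ)) (hck : (c : ℕ) < k)
    (g : F₀) (hg : (V1 0).valuation (al0 g) = 1)
    (hfr : (V1 0).valuation ((be0 g - al0 g ^ q) / (q : F₁)) ≤ 1)
    (hbase : (V c).valuation (zg k d g c 1) ^ (q - 1) = (V c).valuation (q : F)) :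
    ∀ i, 1 ≤ i → i ≤ min (c : ℕ) (k - c) →
      (V c).valuation (zg k d g c i) ^ mult q i = (V c).valuation (q : F) ∧
      (i < min (c : ℕ) (k - c) →
        (V c).valuation (zg k d g c (i + 1) ^ q / zg k d g c i - 1) < 1) := sorry

/-- **NC** (`Pts/NonCusp.lean`, helper145): the non-cuspidal points. -/
theorem ptHypK_nonCusp (hk : 2 ≤ k) (hb : BaseHyp A₀ q)
    (G : Geo A₀ k al0 be0 al1 be1 V0 V1 V2 V j d st w) (b0 : B0 A₀ q V0 j x₀ t F)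
    (b1 : B1 A₀ q al0 be0 V1 j t x₁ w1 cf) (b2 : B2 q al0 be0 al1 be1 V2 j t x₁ κ e)
    (T : Top A₀ q k V j d Eα Nα Nβ N₀) (hR : PtBaseK A₀ q V R) (hx : d 0 j ∈ R)
    (hT : ∀ c, LeLoc R (V c) → Through R (V c))
    (hN : (∀ c, Through R (V c)) → (∀ ε : F, RUnit R ε → RUnit R (Nα ε)) ∧
      (∀ ε : F, RUnit R ε → RUnit R (Nβ ε)) ∧ (∀ ε : F, RUnit R ε → RUnit R (N₀ ε))) :
    PtHypK V Nα Nβ N₀ R := sorry

/-- **CUSP** (`Pts/Cusp.lean`, helper86): the cuspidal points. -/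
theorem ptHypK_cusp (hk : 2 ≤ k) (hb : BaseHyp A₀ q)
    (G : Geo A₀ k al0 be0 al1 be1 V0 V1 V2 V j d st w) (b0 : B0 A₀ q V0 j x₀ t F)
    (b1 : B1 A₀ q al0 be0 V1 j t x₁ w1 cf) (b2 : B2 q al0 be0 al1 be1 V2 j t x₁ κ e)
    (T : Top A₀ q k V j d Eα Nα Nβ N₀) (hR : PtBaseK A₀ q V R) (hx : (d 0 j)⁻¹ ∈ rad R)
    (hT : ∀ c, LeLoc R (V c) → Through R (V c)) :
    PtHypK V Nα Nβ N₀ R := sorry

/-- **The fields `pts₁`, `pts₂` of `ModelK`.** -/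
theorem pts_of (hk : 2 ≤ k) (P : PreModelK A₀ q (d 0 j) V)
    (G : Geo A₀ k al0 be0 al1 be1 V0 V1 V2 V j d st w) (b0 : B0 A₀ q V0 j x₀ t F)
    (b1 : B1 A₀ q al0 be0 V1 j t x₁ w1 cf) (b2 : B2 q al0 be0 al1 be1 V2 j t x₁ κ e)
    (T : Top A₀ q k V j d Eα Nα Nβ N₀) :
    (∀ (𝔫 : Ideal (chart A₀.toSubring (d 0 j))) [𝔫.IsMaximal],
      (q : chart A₀.toSubring (d 0 j)) ∈ 𝔫 →
      PtHypK V Nα Nβ N₀ (locSub (chart A₀.toSubring (d 0 j)) 𝔫)) ∧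
    (∀ (𝔫 : Ideal (chart A₀.toSubring (d 0 j)⁻¹)) [𝔫.IsMaximal],
      (q : chart A₀.toSubring (d 0 j)⁻¹) ∈ 𝔫 →
      PtHypK V Nα Nβ N₀ (locSub (chart A₀.toSubring (d 0 j)⁻¹) 𝔫)) := by
  have h₁ : ∀ (𝔫 : Ideal (chart A₀.toSubring (d 0 j))) [𝔫.IsMaximal],
      (q : chart A₀.toSubring (d 0 j)) ∈ 𝔫 →
      PtHypK V Nα Nβ N₀ (locSub (chart A₀.toSubring (d 0 j)) 𝔫) := by
    intro 𝔫 _ h𝔫
    have hR := PreModelK.ptBase P 𝔫 h𝔫
    have hj : d 0 j ∈ locSub (chart A₀.toSubring (d 0 j)) 𝔫 := le_locSub (self_mem_chart _)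
    exact ptHypK_nonCusp hk P.base G b0 b1 b2 T hR hj
      (fun c hL => through_of_leLoc G b0 T hR.isPt (Or.inl hj) c hL)
      (fun hall => cross_norms P.base.prime.pos T 𝔫 hall)
  refine ⟨h₁, ?_⟩
  intro 𝔫 _ h𝔫
  by_cases hx : (⟨(d 0 j)⁻¹, self_mem_chart _⟩ : chart A₀.toSubring (d 0 j)⁻¹) ∈ 𝔫
  · have hR := PreModelK.ptBase (PreModelK.inv P) 𝔫 h𝔫
    have hs : (d 0 j)⁻¹ ∈ rad (locSub (chart A₀.toSubring (d 0 j)⁻¹) 𝔫) := coe_mem_rad_locSub hx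
    exact ptHypK_cusp hk P.base G b0 b1 b2 T hR hs
      (fun c hL => through_of_leLoc G b0 T hR.isPt (Or.inr hs) c hL)
  · obtain ⟨𝔪, h𝔪, hq, e⟩ := PreModelK.exists_point_of_inv_notMem P 𝔫 h𝔫 hx
    rw [← e]
    exact h₁ 𝔪 hq

end Main

end Fermat.Agent.S45.Pts.WIP

end
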